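import Mathlib

/-!
# The level-one `j` function on the upper half plane

`jH = E₄³/Δ`; its derivative, surjectivity, and the order of vanishing of `jH - a`
(`3` at a zero of `E₄`, `2` at a zero of `E₆`, `1` elsewhere), all without the valence formula.
-/

set_option autoImplicit false

noncomputable section

open UpperHalfPlane hiding I
open Complex Filter Topology ModularForm MatrixGroups Derivative
open scoped Manifold Real

namespace Fermat.Agent.Genus

local notation "Δ" => ModularForm.discriminant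

/-- A function on `ℍ` that is bounded high up has derivative tending to zero at `i∞`. -/
lemma tendsto_normalizedDeriv_atImInfty {F : ℍ → ℂ} (hF : MDiff F)
    (hb : IsBoundedAtImInfty F) :
    Tendsto (normalizedDerivOfComplex F) atImInfty (𝓝 0) := by
  obtain ⟨M, A, hMA⟩ := isBoundedAtImInfty_iff.mp hb
  rw [UpperHalfPlane.mdifferentiable_iff] at hF
  rw [tendsto_zero_iff_norm_tendsto_zero]
  have hlim : Tendsto (fun z : ℍ => ‖(2 * π * I : ℂ)⁻¹‖ * ((max M 0) / ((z.im - max A 0) / 2)))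
      atImInfty (𝓝 0) := by
    have h1 : Tendsto (fun z : ℍ => (z.im - max A 0) / 2) atImInfty atTop := by
      refine Tendsto.atTop_div_const two_pos ?_
      exact tendsto_atTop_add_const_right _ _ tendsto_comap
    simpa using (h1.const_div_atTop (max M 0)).const_mul ‖(2 * π * I : ℂ)⁻¹‖
  refine squeeze_zero' (Eventually.of_forall fun z => norm_nonneg _) ?_ hlim
  have hev : ∀ᶠ z : ℍ in atImInfty, max A 0 < z.im :=
    (tendsto_comap : Tendsto UpperHalfPlane.im atImInfty atTop).eventually_gt_atTop _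
  filter_upwards [hev] with z hz
  simp only [normalizedDerivOfComplex, norm_mul]
  refine mul_le_mul_of_nonneg_left ?_ (norm_nonneg _)
  set r := (z.im - max A 0) / 2 with hr
  have hrpos : 0 < r := by rw [hr]; linarith
  have hsub : Metric.closedBall (z : ℂ) r ⊆ {w : ℂ | max A 0 < w.im} := by
    intro w hw
    have h := (Complex.abs_im_le_norm (w - z)).trans (mem_closedBall_iff_norm.mp hw)
    rw [Complex.sub_im, abs_le] at h
    simp only [Set.mem_ofPred_eq]
    have : (z : ℂ).im = z.im := rfl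
    linarith [h.1]
  have hsub' : Metric.closedBall (z : ℂ) r ⊆ upperHalfPlaneSet := fun w hw =>
    lt_of_le_of_lt (le_max_right A 0) (hsub hw)
  refine Complex.norm_deriv_le_of_forall_mem_sphere_norm_le hrpos
    (DifferentiableOn.diffContOnCl ?_) fun w hw => ?_
  · exact hF.mono ((closure_ball (z : ℂ) hrpos.ne').trans_subset hsub')
  · have hw' := Metric.sphere_subset_closedBall hw
    have hpos : 0 < w.im := hsub' hw'
    simp only [Function.comp_apply, ofComplex_apply_of_im_pos hpos]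
    exact (hMA ⟨w, hpos⟩ (le_trans (le_max_left A 0) (le_of_lt (hsub hw')))).trans (le_max_left _ _)

/-- A level-one slash invariant holomorphic function of weight `< 12` vanishing at `i∞` is `0`. -/
lemma eq_zero_of_slash_invariant_lt_twelve {k : ℤ} (hk : k < 12) {F : ℍ → ℂ}
    (hs : ∀ γ : SL(2, ℤ), F ∣[k] γ = F) (hF : MDiff F) (h0 : Tendsto F atImInfty (𝓝 0)) :
    F = 0 := by
  let f : CuspForm 𝒮ℒ k :=
    { toFun := F
      slash_action_eq' := fun _ ⟨γ, hγ⟩ => hγ ▸ hs γ
      holo' := hF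
      zero_at_cusps' := fun {c} hc => by
        rw [Subgroup.IsArithmetic.isCusp_iff_isCusp_SL2Z] at hc
        rw [OnePoint.isZeroAt_iff_forall_SL2Z hc]
        intro γ _
        rw [hs γ]
        exact h0 }
  have hf : f = 0 := rank_zero_iff_forall_zero.mp (CuspForm.rank_eq_zero_of_weight_lt_twelve hk) f
  exact congrArg DFunLike.coe hf

lemma mdifferentiable_E₄ : MDiff (⇑E₄ : ℍ → ℂ) := E₄.holo'

lemma mdifferentiable_E₆ : MDiff (⇑E₆ : ℍ → ℂ) := E₆.holo'

lemma mdifferentiable_discriminant : MDiff (Δ : ℍ → ℂ) := CuspForm.discriminant.holo'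

lemma slash_eq_self {k : ℤ} (f : ModularForm 𝒮ℒ k) (γ : SL(2, ℤ)) : (⇑f) ∣[k] γ = ⇑f :=
  SlashInvariantForm.slash_action_eqn f _ ⟨γ, rfl⟩

lemma tendsto_coeff_zero {f : ℍ → ℂ} (hper : Function.Periodic (f ∘ ofComplex) (1 : ℝ))
    (hf : MDiff f) (hb : IsBoundedAtImInfty f) :
    Tendsto f atImInfty (𝓝 ((qExpansion 1 f).coeff 0)) := by
  have ha := analyticAt_cuspFunction_zero one_pos hper hf hb
  have hq : (qExpansion 1 f).coeff 0 = cuspFunction 1 f 0 := by
    simp [qExpansion_coeff]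
  rw [hq]
  refine (ha.continuousAt.tendsto.comp (qParam_tendsto_atImInfty one_pos)).congr fun τ => ?_
  exact eq_cuspFunction τ one_ne_zero hper

lemma tendsto_E {k : ℕ} (hk : 3 ≤ k) (hk2 : Even k) :
    Tendsto (⇑(E hk)) atImInfty (𝓝 1) := by
  have h := tendsto_coeff_zero
    (SlashInvariantFormClass.periodic_comp_ofComplex (E hk) one_mem_strictPeriods_SL)
    (E hk).holo' (ModularFormClass.bdd_at_infty (E hk))
  have hc := EisensteinSeries.E_qExpansion_coeff_zero hk hk2
  rw [show (qExpansion 1 ⇑(E hk)).coeff 0 = 1 from hc] at h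
  exact h

lemma periodic_E2 : Function.Periodic (EisensteinSeries.E2 ∘ ofComplex) (1 : ℝ) := by
  intro w
  have h := fun z : ℍ => @EisensteinSeries.hasSum_qExpansion_E2 z
  by_cases hw : 0 < w.im
  · have hw' : 0 < (w + (1 : ℝ)).im := by simpa using hw
    simp only [Function.comp_apply, ofComplex_apply_of_im_pos hw, ofComplex_apply_of_im_pos hw']
    refine (h ⟨_, hw'⟩).unique ?_
    convert h ⟨_, hw⟩ using 4 with m
    simp [mul_add, Complex.exp_add]
  · rw [not_lt] at hw
    simp only [Function.comp_apply]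
    congr 1
    rw [ofComplex_apply_of_im_nonpos hw, ofComplex_apply_of_im_nonpos (by simpa using hw)]

lemma tendsto_E2 : Tendsto EisensteinSeries.E2 atImInfty (𝓝 1) := by
  have hper := periodic_E2
  have h := tendsto_coeff_zero hper E2_mdifferentiable
    EisensteinSeries.isBoundedAtImInfty_E2
  have ha := analyticAt_cuspFunction_zero one_pos hper E2_mdifferentiable
    EisensteinSeries.isBoundedAtImInfty_E2
  have hp := hasFPowerSeriesOnBall_cuspFunction one_pos ha
    (c := fun m : ℕ => if m = 0 then 1 else -24 * (ArithmeticFunction.sigma 1 m : ℂ))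
    (fun τ => by
      convert EisensteinSeries.hasSum_qExpansion_E2 (z := τ) using 4 with m
      · simp [Function.Periodic.qParam])
  have hc := hp.coeff_zero (fun _ => (0 : ℂ))
  simp only [FormalMultilinearSeries.ofScalars_apply_eq, pow_zero, if_pos, smul_eq_mul, mul_one]
    at hc
  rw [qExpansion_coeff] at h
  simpa [← hc] using h

/-- Ramanujan: `D E₄ = (E₂ E₄ - E₆)/3`. -/
theorem normalizedDeriv_E₄ (z : ℍ) :
    normalizedDerivOfComplex E₄ z = (EisensteinSeries.E2 z * E₄ z - E₆ z) / 3 := by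
  have h := eq_zero_of_slash_invariant_lt_twelve (k := 6) (by norm_num)
    (F := serreDerivative (4 : ℂ) E₄ + (3⁻¹ : ℂ) • ⇑E₆) ?_ ?_ ?_
  · have := congrFun h z
    simp only [Pi.add_apply, Pi.smul_apply, serreDerivative_apply, smul_eq_mul, Pi.zero_apply]
      at this
    linear_combination this
  · intro γ
    rw [SlashAction.add_slash, SL_smul_slash, slash_eq_self]
    congr 1
    exact serreDerivative_slash_invariant (k := 4) mdifferentiable_E₄ (slash_eq_self E₄ γ)
  · exact (serreDerivative_mdifferentiable _ mdifferentiable_E₄).add (mdifferentiable_E₆.const_smul _)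
  · have h4 := tendsto_E (k := 4) (by norm_num) ⟨2, rfl⟩
    have h6 := tendsto_E (k := 6) (by norm_num) ⟨3, rfl⟩
    have hD := tendsto_normalizedDeriv_atImInfty mdifferentiable_E₄ (ModularFormClass.bdd_at_infty E₄)
    have := (hD.sub ((tendsto_E2.const_mul ((4 : ℂ) * 12⁻¹)).mul h4)).add (h6.const_mul (3⁻¹ : ℂ))
    norm_num at this
    refine this.congr fun w => ?_
    simp only [serreDerivative_apply, Pi.add_apply, Pi.smul_apply, smul_eq_mul]
    ring

/-- Ramanujan: `D E₆ = (E₂ E₆ - E₄²)/2`. -/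
theorem normalizedDeriv_E₆ (z : ℍ) :
    normalizedDerivOfComplex E₆ z = (EisensteinSeries.E2 z * E₆ z - E₄ z ^ 2) / 2 := by
  have hE : MDiff ((⇑E₄ : ℍ → ℂ) * ⇑E₄) := mdifferentiable_E₄.mul mdifferentiable_E₄
  have h := eq_zero_of_slash_invariant_lt_twelve (k := 8) (by norm_num)
    (F := serreDerivative (6 : ℂ) E₆ + (2⁻¹ : ℂ) • ((⇑E₄ : ℍ → ℂ) * ⇑E₄)) ?_ ?_ ?_
  · have := congrFun h z
    simp only [Pi.add_apply, Pi.smul_apply, serreDerivative_apply, smul_eq_mul, Pi.zero_apply,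
      Pi.mul_apply] at this
    linear_combination this
  · intro γ
    rw [SlashAction.add_slash, SL_smul_slash]
    congr 1
    · exact serreDerivative_slash_invariant (k := 6) mdifferentiable_E₆ (slash_eq_self E₆ γ)
    · congr 1
      exact (mul_slash_SL2 4 4 γ _ _).trans (by rw [slash_eq_self])
  · exact (serreDerivative_mdifferentiable _ mdifferentiable_E₆).add (hE.const_smul _)
  · have h4 := tendsto_E (k := 4) (by norm_num) ⟨2, rfl⟩
    have h6 := tendsto_E (k := 6) (by norm_num) ⟨3, rfl⟩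
    have hD := tendsto_normalizedDeriv_atImInfty mdifferentiable_E₆ (ModularFormClass.bdd_at_infty E₆)
    have := (hD.sub ((tendsto_E2.const_mul ((6 : ℂ) * 12⁻¹)).mul h6)).add
      ((h4.mul h4).const_mul (2⁻¹ : ℂ))
    norm_num at this
    refine this.congr fun w => ?_
    simp only [serreDerivative_apply, Pi.add_apply, Pi.smul_apply, Pi.mul_apply, smul_eq_mul]
    ring

/-- `D Δ = E₂ Δ`. -/
theorem normalizedDeriv_discriminant (z : ℍ) :
    normalizedDerivOfComplex Δ z = EisensteinSeries.E2 z * Δ z := by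
  have e : (Δ : ℍ → ℂ) = (1728⁻¹ : ℂ) • ((⇑E₄ : ℍ → ℂ) ^ 3 - (⇑E₆ : ℍ → ℂ) ^ 2) := by
    funext w
    simp only [Pi.smul_apply, Pi.sub_apply, Pi.pow_apply, smul_eq_mul]
    rw [discriminant_eq_E₄_cube_sub_E₆_sq]
    ring
  have h4 : MDiff (⇑E₄ : ℍ → ℂ) := mdifferentiable_E₄
  have h6 : MDiff (⇑E₆ : ℍ → ℂ) := mdifferentiable_E₆
  rw [e, normalizedDerivOfComplex_smul _ _ ((h4.pow 3).sub (h6.pow 2)),
    normalizedDerivOfComplex_sub _ _ (h4.pow 3) (h6.pow 2),
    normalizedDerivOfComplex_pow _ _ h4, normalizedDerivOfComplex_pow _ _ h6]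
  simp only [Pi.smul_apply, Pi.sub_apply, Pi.mul_apply, Pi.pow_apply, smul_eq_mul,
    normalizedDeriv_E₄, normalizedDeriv_E₆, Pi.ofNat_apply, Nat.cast_ofNat]
  ring

/-- The modular invariant `j = E₄³/Δ` on the upper half plane. -/
def jH (z : ℍ) : ℂ := E₄ z ^ 3 / Δ z

lemma jH_sub_1728 (z : ℍ) : jH z - 1728 = E₆ z ^ 2 / Δ z := by
  have h := discriminant_ne_zero z
  rw [jH, div_sub' h]
  congr 1
  rw [discriminant_eq_E₄_cube_sub_E₆_sq]
  ring

lemma analyticAt_comp_ofComplex {f : ℍ → ℂ} (hf : MDiff f) (τ : ℍ) :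
    AnalyticAt ℂ (f ∘ ofComplex) τ :=
  DifferentiableOn.analyticAt (UpperHalfPlane.mdifferentiable_iff.mp hf)
    (isOpen_upperHalfPlaneSet.mem_nhds τ.im_pos)

lemma mdifferentiable_jH : MDiff jH :=
  (mdifferentiable_E₄.pow 3).div mdifferentiable_discriminant discriminant_ne_zero

/-- `E₄` and `E₆` have no common zero. -/
lemma not_E₄_E₆_eq_zero (τ : ℍ) : ¬ (E₄ τ = 0 ∧ E₆ τ = 0) := fun ⟨h4, h6⟩ => by
  have := discriminant_ne_zero τ
  rw [discriminant_eq_E₄_cube_sub_E₆_sq, h4, h6] at this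
  norm_num at this

lemma deriv_comp_ofComplex (f : ℍ → ℂ) (τ : ℍ) :
    deriv (f ∘ ofComplex) τ = (2 * π * I) * normalizedDerivOfComplex f τ := by
  simp only [normalizedDerivOfComplex]
  field_simp [Complex.two_pi_I_ne_zero]

lemma analyticOrderAt_E₄_eq_one {τ : ℍ} (h : E₄ τ = 0) :
    analyticOrderAt (⇑E₄ ∘ ofComplex) (τ : ℂ) = 1 := by
  refine (analyticAt_comp_ofComplex mdifferentiable_E₄ τ).analyticOrderAt_eq_one_of_zero_deriv_ne_zero
    (by simpa [ofComplex_apply] using h) ?_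
  rw [deriv_comp_ofComplex, normalizedDeriv_E₄, h]
  have h6 : E₆ τ ≠ 0 := fun h6 => not_E₄_E₆_eq_zero τ ⟨h, h6⟩
  simp [h6]

lemma analyticOrderAt_E₆_eq_one {τ : ℍ} (h : E₆ τ = 0) :
    analyticOrderAt (⇑E₆ ∘ ofComplex) (τ : ℂ) = 1 := by
  refine (analyticAt_comp_ofComplex mdifferentiable_E₆ τ).analyticOrderAt_eq_one_of_zero_deriv_ne_zero
    (by simpa [ofComplex_apply] using h) ?_
  rw [deriv_comp_ofComplex, normalizedDeriv_E₆, h]
  have h4 : E₄ τ ≠ 0 := fun h4 => not_E₄_E₆_eq_zero τ ⟨h4, h⟩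
  simp [h4]

lemma analyticOrderAt_inv_discriminant (τ : ℍ) :
    analyticOrderAt ((fun z => (Δ z)⁻¹) ∘ ofComplex) (τ : ℂ) = 0 := by
  rw [analyticOrderAt_eq_zero]
  exact Or.inr (by simpa [ofComplex_apply] using discriminant_ne_zero τ)

lemma mdifferentiable_inv_discriminant : MDiff (fun z : ℍ => (Δ z)⁻¹) :=
  mdifferentiable_discriminant.inv discriminant_ne_zero

/-- `jH` has a triple zero at every zero of `E₄`. -/
theorem analyticOrderAt_jH_zero {τ : ℍ} (h : E₄ τ = 0) :
    analyticOrderAt (jH ∘ ofComplex) (τ : ℂ) = 3 := by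
  have e : jH ∘ ofComplex =
      (⇑E₄ ∘ ofComplex) ^ 3 * ((fun z => (Δ z)⁻¹) ∘ ofComplex) := by
    funext w
    simp [jH, div_eq_mul_inv]
  rw [e, analyticOrderAt_mul ((analyticAt_comp_ofComplex mdifferentiable_E₄ τ).pow 3)
      (analyticAt_comp_ofComplex mdifferentiable_inv_discriminant τ),
    analyticOrderAt_pow (analyticAt_comp_ofComplex mdifferentiable_E₄ τ), analyticOrderAt_E₄_eq_one h,
    analyticOrderAt_inv_discriminant]
  norm_num

/-- `jH - 1728` has a double zero at every zero of `E₆`. -/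
theorem analyticOrderAt_jH_sub_1728 {τ : ℍ} (h : E₆ τ = 0) :
    analyticOrderAt ((fun z => jH z - 1728) ∘ ofComplex) (τ : ℂ) = 2 := by
  have e : (fun z => jH z - 1728) ∘ ofComplex =
      (⇑E₆ ∘ ofComplex) ^ 2 * ((fun z => (Δ z)⁻¹) ∘ ofComplex) := by
    funext w
    simp [jH_sub_1728, div_eq_mul_inv]
  rw [e, analyticOrderAt_mul ((analyticAt_comp_ofComplex mdifferentiable_E₆ τ).pow 2)
      (analyticAt_comp_ofComplex mdifferentiable_inv_discriminant τ),
    analyticOrderAt_pow (analyticAt_comp_ofComplex mdifferentiable_E₆ τ), analyticOrderAt_E₆_eq_one h,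
    analyticOrderAt_inv_discriminant]
  norm_num

/-- `D j = -E₄² E₆ / Δ`. -/
theorem normalizedDeriv_jH (τ : ℍ) :
    normalizedDerivOfComplex jH τ = -(E₄ τ ^ 2 * E₆ τ) / Δ τ := by
  have h4 : MDiff (⇑E₄ : ℍ → ℂ) := mdifferentiable_E₄
  have e : jH * (Δ : ℍ → ℂ) = (⇑E₄ : ℍ → ℂ) ^ 3 := by
    funext w
    simp [jH, div_mul_cancel₀ _ (discriminant_ne_zero w)]
  have h := congrFun (congrArg normalizedDerivOfComplex e) τ
  rw [normalizedDerivOfComplex_mul _ _ mdifferentiable_jH mdifferentiable_discriminant,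
    normalizedDerivOfComplex_pow _ _ h4] at h
  simp only [Pi.add_apply, Pi.mul_apply, Pi.pow_apply, normalizedDeriv_E₄,
    normalizedDeriv_discriminant, Pi.ofNat_apply, Nat.cast_ofNat] at h
  have hΔ := discriminant_ne_zero τ
  rw [eq_div_iff hΔ]
  have e' := congrFun e τ
  simp only [Pi.mul_apply, Pi.pow_apply] at e'
  norm_num at h
  linear_combination h - EisensteinSeries.E2 τ * e'

/-- `jH - a` has a simple zero at each preimage of `a ≠ 0, 1728`. -/
theorem analyticOrderAt_jH_sub {a : ℂ} (ha : a ≠ 0) (ha' : a ≠ 1728) {τ : ℍ} (h : jH τ = a) :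
    analyticOrderAt ((fun z => jH z - a) ∘ ofComplex) (τ : ℂ) = 1 := by
  have hd : MDiff (fun z => jH z - a) := mdifferentiable_jH.sub mdifferentiable_const
  refine (analyticAt_comp_ofComplex hd τ).analyticOrderAt_eq_one_of_zero_deriv_ne_zero
    (by simp [ofComplex_apply, h]) ?_
  have e : deriv ((fun z => jH z - a) ∘ ofComplex) (τ : ℂ) = deriv (jH ∘ ofComplex) (τ : ℂ) :=
    deriv_sub_const (f := jH ∘ ofComplex) a
  rw [e, deriv_comp_ofComplex, normalizedDeriv_jH]
  have h4 : E₄ τ ≠ 0 := fun h4 => ha (by rw [← h, jH, h4]; simp)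
  have h6 : E₆ τ ≠ 0 := fun h6 => ha' (by
    have := jH_sub_1728 τ
    rw [h6, h] at this
    simpa [sub_eq_zero] using this)
  simp [h4, h6, discriminant_ne_zero τ]

/-- `jH` is surjective. -/
theorem jH_surjective : Function.Surjective jH := by
  intro a
  by_contra hne
  push Not at hne
  let f : ℍ → ℂ := (⇑E₄ : ℍ → ℂ) ^ 3 - a • (Δ : ℍ → ℂ)
  have h4 : MDiff (⇑E₄ : ℍ → ℂ) := mdifferentiable_E₄
  have hΔd : MDiff (Δ : ℍ → ℂ) := mdifferentiable_discriminant
  have hf0 : ∀ z, f z ≠ 0 := fun z hz => hne z (by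
    simp only [f, Pi.sub_apply, Pi.pow_apply, Pi.smul_apply, smul_eq_mul, sub_eq_zero] at hz
    rw [jH, hz, mul_div_assoc, div_self (discriminant_ne_zero z), mul_one])
  have hsΔ : ∀ γ : SL(2, ℤ), (Δ : ℍ → ℂ) ∣[(12 : ℤ)] γ = (Δ : ℍ → ℂ) := fun γ =>
    SlashInvariantForm.slash_action_eqn CuspForm.discriminant _ ⟨γ, rfl⟩
  have hsf : ∀ γ : SL(2, ℤ), f ∣[(12 : ℤ)] γ = f := fun γ => by
    have e : ((⇑E₄ : ℍ → ℂ) ^ 3) ∣[(12 : ℤ)] γ = (⇑E₄ : ℍ → ℂ) ^ 3 := by
      rw [pow_succ, pow_two]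
      exact (mul_slash_SL2 8 4 γ _ _).trans (by
        rw [slash_eq_self]
        congr 1
        exact (mul_slash_SL2 4 4 γ _ _).trans (by rw [slash_eq_self]))
    simp only [f, sub_eq_add_neg, SlashAction.add_slash, SlashAction.neg_slash, SL_smul_slash,
      hsΔ, e]
  have hzero := eq_zero_of_slash_invariant_lt_twelve (k := 0) (by norm_num)
    (F := (Δ : ℍ → ℂ) / f) ?_ ?_ ?_
  · exact div_ne_zero (discriminant_ne_zero UpperHalfPlane.I) (hf0 _)
      (congrFun hzero UpperHalfPlane.I)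
  · intro γ
    have := div_slash_SL2 12 12 γ (Δ : ℍ → ℂ) f
    rw [hsΔ, hsf, sub_self] at this
    exact this
  · exact hΔd.div ((h4.pow 3).sub (hΔd.const_smul a)) hf0
  · have ht : Tendsto f atImInfty (𝓝 1) := by
      have := ((tendsto_E (k := 4) (by norm_num) ⟨2, rfl⟩).pow 3).sub
        ((discriminant_isZeroAtImInfty : Tendsto Δ atImInfty (𝓝 0)).const_smul a)
      simp only [one_pow, smul_zero, sub_zero] at this
      exact this
    have := (discriminant_isZeroAtImInfty : Tendsto Δ atImInfty (𝓝 0)).div ht one_ne_zero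
    simpa using this

lemma S_smul_I : ModularGroup.S • UpperHalfPlane.I = UpperHalfPlane.I :=
  ModularGroup.stabilizer_I.mpr (by simp)

lemma ST_smul_ρ : (ModularGroup.S * ModularGroup.T) • UpperHalfPlane.ρ = UpperHalfPlane.ρ :=
  ModularGroup.stabilizer_ρ.mpr (by simp)

/-- `E₄` vanishes at `ρ`. -/
theorem E₄_ρ : E₄ UpperHalfPlane.ρ = 0 := by
  have h := congrFun (slash_eq_self E₄ (ModularGroup.S * ModularGroup.T)) UpperHalfPlane.ρ
  rw [SL_slash_apply, ST_smul_ρ] at h
  have hd : denom (ModularGroup.S * ModularGroup.T : SL(2, ℤ)) UpperHalfPlane.ρ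
      = (UpperHalfPlane.ρ : ℂ) + 1 := by
    rw [ModularGroup.denom_apply]
    simp [Matrix.SpecialLinearGroup.coe_mul, ModularGroup.coe_S, ModularGroup.coe_T]
  rw [hd] at h
  have hs := UpperHalfPlane.ρ_sq
  have h1 : (UpperHalfPlane.ρ : ℂ) + 1 ≠ 0 := by
    intro h0
    rw [add_eq_zero_iff_eq_neg] at h0
    rw [h0] at hs
    norm_num at hs
  by_contra hne
  have h3 : ((UpperHalfPlane.ρ : ℂ) + 1) ^ (-(4 : ℤ)) = 1 :=
    mul_left_cancel₀ hne (h.trans (mul_one _).symm)
  rw [zpow_neg, inv_eq_one, show (4 : ℤ) = ((4 : ℕ) : ℤ) from rfl, zpow_natCast] at h3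
  have e : ((UpperHalfPlane.ρ : ℂ) + 1) ^ 4 = -(UpperHalfPlane.ρ : ℂ) - 1 := by
    linear_combination ((UpperHalfPlane.ρ : ℂ) ^ 2 + 3 * (UpperHalfPlane.ρ : ℂ) + 2) * hs
  rw [e] at h3
  have : (UpperHalfPlane.ρ : ℂ) = -2 := by linear_combination -h3
  rw [this] at hs
  norm_num at hs

/-- `E₆` vanishes at `i`. -/
theorem E₆_I : E₆ UpperHalfPlane.I = 0 := by
  have h := congrFun (slash_eq_self E₆ ModularGroup.S) UpperHalfPlane.I
  rw [SL_slash_apply, S_smul_I] at h
  have hd : denom (ModularGroup.S : SL(2, ℤ)) UpperHalfPlane.I = Complex.I := by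
    exact ModularGroup.denom_S _
  rw [hd] at h
  have e : Complex.I ^ (-(6 : ℤ)) = -1 := by
    rw [zpow_neg, show (6 : ℤ) = ((6 : ℕ) : ℤ) from rfl, zpow_natCast, Complex.I_pow_eq_pow_mod]
    norm_num
  rw [e] at h
  linear_combination (-1 / 2 : ℂ) * h

theorem jH_ρ : jH UpperHalfPlane.ρ = 0 := by simp [jH, E₄_ρ]

theorem jH_I : jH UpperHalfPlane.I = 1728 := by
  have h := jH_sub_1728 UpperHalfPlane.I
  rw [E₆_I] at h
  simpa [sub_eq_zero] using h

end Fermat.Agent.Genus
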