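import Mathlib

/-!
# Counting orbits of a permutation of prime order
-/

set_option autoImplicit false

noncomputable section

namespace Fermat.Agent.Genus

variable {G Ω : Type*} [Group G] [MulAction G Ω]

/-- Orbits of `g` and of the permutation it induces. -/
theorem natCard_orbits_toPerm (g : G) :
    Nat.card (MulAction.orbitRel.Quotient (Subgroup.zpowers (MulAction.toPermHom G Ω g)) Ω)
      = Nat.card (MulAction.orbitRel.Quotient (Subgroup.zpowers g) Ω) := by
  refine Nat.card_congr (Quotient.congrRight fun a b => ?_)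
  simp only [MulAction.orbitRel_apply, MulAction.mem_orbit_iff, Subtype.exists,
    Subgroup.mem_zpowers_iff]
  constructor
  · rintro ⟨_, ⟨k, rfl⟩, hk⟩
    refine ⟨g ^ k, ⟨k, rfl⟩, ?_⟩
    rw [Subgroup.mk_smul] at hk ⊢
    rwa [← map_zpow] at hk
  · rintro ⟨_, ⟨k, rfl⟩, hk⟩
    refine ⟨MulAction.toPermHom G Ω g ^ k, ⟨k, rfl⟩, ?_⟩
    rw [Subgroup.mk_smul] at hk ⊢
    rwa [← map_zpow]

end Fermat.Agent.Genus
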